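/-
T1-A leaf T1A-ORB (helper5), part 1: the refined step analysis of a `κ`-embedding along the chain
`X_1, X_r, X_{r^2}, …` of the abstract Puiseux tower (`TowerData`).

If `σ(X_{r^i}) = J(c, n)` then `σ(X_{r^(i+1)})` is `J(c^r, n r)` ("up") or `J(c', n / r)` with
`c'^r = c` ("down"); after a down-step comes a down-step.
-/
import Mathlib
import Fermat.Agent.Lib.Igusa.TowerSteps

set_option autoImplicit false

open Polynomial IntermediateField

noncomputable section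

namespace Fermat.Agent.Igusa

namespace TowerData

variable {k Ω : Type*} [Field k] [Field Ω] [Algebra k Ω] (D : TowerData k Ω)

/-- **forward step**: the value at `X_{r^(i+1)}` from the value at `X_{r^i}` -/
theorem orb_step_fwd (σ : Lifts k Ω Ω) {r i : ℕ} (hr : r.Prime) (hrN : r ∣ D.N)
    (h0 : D.xj (r ^ i) ∈ σ.carrier) (h1 : D.xj (r ^ (i + 1)) ∈ σ.carrier)
    {c : kˣ} {n : ℕ} (hn : 0 < n) (hrn : r ∣ n) (hv : twVal σ (D.xj (r ^ i)) = D.J c n) :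
    twVal σ (D.xj (r ^ (i + 1))) = D.J (c ^ r) (n * r) ∨
      ∃ c' : kˣ, c' ^ r = c ∧ twVal σ (D.xj (r ^ (i + 1))) = D.J c' (n / r) := by
  obtain ⟨ζ, hζ⟩ := D.exists_primitiveRoot_of_dvd hrN
  obtain ⟨c₀, rfl⟩ := D.exists_root c hr hrN
  have hup := D.Phi_rel_up hr hrN (d := r ^ i) (pow_pos hr.pos _)
  rw [← pow_succ] at hup
  have h3 := twVal_biv σ h0 h1 (D.Phi r) hup
  rw [hv] at h3
  rcases D.Phi_root_cases c₀ hr hrN hζ hrn hn h3 with h4 | ⟨b, -, h4⟩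
  · left
    rw [h4, ← pow_mul, sq]
  · right
    refine ⟨ζ ^ b * c₀, ?_, h4⟩
    rw [mul_pow, ← pow_mul, mul_comm b r, pow_mul, hζ.pow_eq_one, one_pow, one_mul]

/-- **backward step**: the value at `X_{r^i}` from the value at `X_{r^(i+1)}` -/
theorem orb_step_bwd (σ : Lifts k Ω Ω) {r i : ℕ} (hr : r.Prime) (hrN : r ∣ D.N)
    (h0 : D.xj (r ^ i) ∈ σ.carrier) (h1 : D.xj (r ^ (i + 1)) ∈ σ.carrier)
    {c : kˣ} {n : ℕ} (hn : 0 < n) (hrn : r ∣ n)
    (hv : twVal σ (D.xj (r ^ (i + 1))) = D.J c n) :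
    twVal σ (D.xj (r ^ i)) = D.J (c ^ r) (n * r) ∨
      ∃ c' : kˣ, c' ^ r = c ∧ twVal σ (D.xj (r ^ i)) = D.J c' (n / r) := by
  obtain ⟨ζ, hζ⟩ := D.exists_primitiveRoot_of_dvd hrN
  obtain ⟨c₀, rfl⟩ := D.exists_root c hr hrN
  have hdown := D.Phi_rel_down hr hrN (d := r ^ i) (pow_pos hr.pos _)
  rw [← pow_succ] at hdown
  have h3 := twVal_biv σ h1 h0 (D.Phi r) hdown
  rw [hv] at h3
  rcases D.Phi_root_cases c₀ hr hrN hζ hrn hn h3 with h4 | ⟨b, -, h4⟩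
  · left
    rw [h4, ← pow_mul, sq]
  · right
    refine ⟨ζ ^ b * c₀, ?_, h4⟩
    rw [mul_pow, ← pow_mul, mul_comm b r, pow_mul, hζ.pow_eq_one, one_pow, one_mul]

theorem orb_div_lt_mul {r n : ℕ} (hr : r.Prime) (hn : 0 < n) : n / r < n * r := by
  have h1 : n / r ≤ n := Nat.div_le_self n r
  have h2 : n < n * r := by
    have := hr.two_le
    nlinarith
  omega

/-- **after a down-step comes a down-step** -/
theorem orb_step_down_down (σ : Lifts k Ω Ω) {r i : ℕ} (hr : r.Prime) (hrN : r ∣ D.N)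
    (h0 : D.xj (r ^ i) ∈ σ.carrier) (h1 : D.xj (r ^ (i + 1)) ∈ σ.carrier)
    (h2 : D.xj (r ^ (i + 2)) ∈ σ.carrier) {c' c : kˣ} {n : ℕ} (hn : 0 < n) (hrn : r ∣ n)
    (hv0 : twVal σ (D.xj (r ^ i)) = D.J c' (n * r))
    (hv1 : twVal σ (D.xj (r ^ (i + 1))) = D.J c n) :
    ∃ c'' : kˣ, c'' ^ r = c ∧ twVal σ (D.xj (r ^ (i + 2))) = D.J c'' (n / r) := by
  obtain ⟨d, hd⟩ := D.chain_step σ hr hrN h0 h1 h2 hn hrn hv0 hv1
  rcases D.orb_step_fwd σ hr hrN h1 h2 hn hrn hv1 with h3 | h3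
  · exfalso
    rw [hd] at h3
    have hpos : 0 < n / r := Nat.div_pos (Nat.le_of_dvd hn hrn) hr.pos
    have h4 := (D.J_inj hpos (Nat.mul_pos hn hr.pos) h3).1
    have := orb_div_lt_mul hr hn
    omega
  · exact h3

/-- distinct levels have distinct values -/
theorem orb_twVal_ne (σ : Lifts k Ω Ω) {r i j : ℕ} (hr : r.Prime)
    (hi : D.xj (r ^ i) ∈ σ.carrier) (hj : D.xj (r ^ j) ∈ σ.carrier) (hij : i ≠ j) :
    twVal σ (D.xj (r ^ i)) ≠ twVal σ (D.xj (r ^ j)) := by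
  intro h
  have h8 := twVal_injective σ hi hj h
  have h9 := (D.J_inj (Nat.mul_pos D.N_pos (pow_pos hr.pos _))
    (Nat.mul_pos D.N_pos (pow_pos hr.pos _)) h8).1
  have h10 : r ^ i = r ^ j := Nat.eq_of_mul_eq_mul_left D.N_pos h9
  exact hij (Nat.pow_right_injective hr.two_le h10)

end TowerData

end Fermat.Agent.Igusa
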