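/-
T1-A (helper5), BARFIELD, abstract part: in the abstract Puiseux tower the polynomial
`Φ_r(X, X_d)` has pairwise distinct roots, hence is separable.
-/
import Mathlib
import Fermat.Agent.Lib.T1.GoodRed.Orb.Step

set_option autoImplicit false

open Polynomial IntermediateField

noncomputable section

namespace Fermat.Agent.Igusa

namespace TowerData

variable {k Ω : Type*} [Field k] [Field Ω] [Algebra k Ω] (D : TowerData k Ω)

/-- **`Φ_r(X, X_d)` is separable** -/
theorem Phi_map_separable {r d : ℕ} (hr : r.Prime) (hrN : r ∣ D.N) (hd : 0 < d) :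
    ((D.Phi r).map (twEv (D.xj d))).Separable := by
  classical
  obtain ⟨ζ, hζ⟩ := D.exists_primitiveRoot_of_dvd hrN
  have hdvd : r ∣ D.N * d := Dvd.dvd.mul_right hrN d
  have hpos : 0 < D.N * d := Nat.mul_pos D.N_pos hd
  have h := D.Phi_roots 1 hr hrN hζ hdvd hpos
  rw [one_pow] at h
  unfold xj
  rw [h]
  have hposdiv : 0 < D.N * d / r := Nat.div_pos (Nat.le_of_dvd hpos hdvd) hr.pos
  refine Separable.mul separable_X_sub_C ?_ ?_
  · rw [separable_prod_X_sub_C_iff']
    intro b hb b' hb' hbb'
    have h2 := (D.J_inj hposdiv hposdiv hbb').2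
    rw [mul_one, mul_one] at h2
    exact hζ.pow_inj (Finset.mem_range.mp hb) (Finset.mem_range.mp hb') h2
  · refine IsCoprime.prod_right fun b _ => ?_
    apply isCoprime_X_sub_C_of_isUnit_sub
    refine (sub_ne_zero_of_ne ?_).isUnit
    intro heq
    have h2 := (D.J_inj (Nat.mul_pos hpos hr.pos) hposdiv heq).1
    have h3 := orb_div_lt_mul hr hpos
    omega

end TowerData

end Fermat.Agent.Igusa
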