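/-
T1-A leaf T1A-ORB (helper5), part 5 (arithmetic): `cuspCount` is multiplicative,
`cuspCount (r^e) = Σ_{i ≤ e} φ(r^min(i, e-i))`, and the finite sets of classes.
-/
import Mathlib
import Fermat.Prelude.Def_ModularCurve_GenusNumerics

set_option autoImplicit false

open ModularCurve

namespace Fermat.Agent.Igusa

/-- the summand of `cuspCount` is multiplicative in coprime pairs -/
theorem orb_cusp_summand_mul {a b x y : ℕ} (hab : a.Coprime b) (hx : x ∣ a) (hy : y ∣ b) :
    Nat.totient (Nat.gcd (x * y) (a * b / (x * y))) =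
      Nat.totient (Nat.gcd x (a / x)) * Nat.totient (Nat.gcd y (b / y)) := by
  have hax : a / x ∣ a := Nat.div_dvd_of_dvd hx
  have hby : b / y ∣ b := Nat.div_dvd_of_dvd hy
  have hcop1 : (a / x).Coprime (b / y) := Nat.Coprime.of_dvd hax hby hab
  have hcop2 : y.Coprime (a / x) := (Nat.Coprime.of_dvd hax hy hab).symm
  have hcop3 : x.Coprime (b / y) := Nat.Coprime.of_dvd hx hby hab
  rw [Nat.mul_div_mul_comm hx hy, Nat.Coprime.gcd_mul _ hcop1,
    Nat.Coprime.gcd_mul_right_cancel x hcop2, Nat.Coprime.gcd_mul_left_cancel y hcop3]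
  apply Nat.totient_mul
  exact Nat.Coprime.of_dvd ((Nat.gcd_dvd_left _ _).trans hx) ((Nat.gcd_dvd_left _ _).trans hy) hab

/-- **`cuspCount` is multiplicative** -/
theorem orb_cuspCount_mul {a b : ℕ} (hab : a.Coprime b) :
    cuspCount (a * b) = cuspCount a * cuspCount b := by
  unfold cuspCount
  rw [hab.divisors_mul, Finset.sum_map]
  change ∑ x ∈ (a.divisors ×ˢ b.divisors).attach,
    Nat.totient (Nat.gcd (x.1.1 * x.1.2) (a * b / (x.1.1 * x.1.2))) = _
  rw [Finset.sum_attach (a.divisors ×ˢ b.divisors)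
    (fun p => Nat.totient (Nat.gcd (p.1 * p.2) (a * b / (p.1 * p.2)))),
    Finset.sum_product, Finset.sum_mul_sum]
  refine Finset.sum_congr rfl (fun x hx => Finset.sum_congr rfl (fun y hy => ?_))
  exact orb_cusp_summand_mul hab (Nat.dvd_of_mem_divisors hx) (Nat.dvd_of_mem_divisors hy)

/-- `cuspCount` at prime powers -/
theorem orb_cuspCount_prime_pow {r : ℕ} (hr : r.Prime) (e : ℕ) :
    cuspCount (r ^ e) = ∑ i ∈ Finset.range (e + 1), Nat.totient (r ^ min i (e - i)) := by
  unfold cuspCount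
  rw [Nat.divisors_prime_pow hr, Finset.sum_map]
  refine Finset.sum_congr rfl (fun i hi => ?_)
  rw [Finset.mem_range] at hi
  simp only [Function.Embedding.coeFn_mk]
  rw [Nat.pow_div (by omega) hr.pos]
  congr 1
  rcases Nat.le_total i (e - i) with h | h
  · rw [min_eq_left h]
    exact Nat.gcd_eq_left (pow_dvd_pow r h)
  · rw [min_eq_right h]
    exact Nat.gcd_eq_right (pow_dvd_pow r h)

/-- the product formula -/
theorem orb_cuspCount_eq_prod {N : ℕ} (hN : N ≠ 0) :
    cuspCount N = ∏ r ∈ N.primeFactors, cuspCount (r ^ N.factorization r) := by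
  rw [Nat.multiplicative_factorization cuspCount (fun x y h => orb_cuspCount_mul h)
    cuspCount_one hN, Finsupp.prod, Nat.support_factorization]

variable (k : Type*) [Field k]

/-- the finite set of possible classes at the prime `r`, `r^e ‖ N` -/
noncomputable def orbClsSet (r e : ℕ) : Finset (ℕ × k) :=
  open Classical in
  (Finset.range (e + 1)).biUnion
    (fun i => (primitiveRoots (r ^ min i (e - i)) k).image (fun θ => (i, θ)))

theorem mem_orbClsSet {r e : ℕ} (hr : r.Prime) {i : ℕ} {θ : k} :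
    (i, θ) ∈ orbClsSet k r e ↔ i ≤ e ∧ IsPrimitiveRoot θ (r ^ min i (e - i)) := by
  classical
  unfold orbClsSet
  rw [Finset.mem_biUnion]
  constructor
  · rintro ⟨i', hi', h⟩
    rw [Finset.mem_image] at h
    obtain ⟨θ', hθ', heq⟩ := h
    rw [Prod.mk.injEq] at heq
    obtain ⟨rfl, rfl⟩ := heq
    rw [Finset.mem_range] at hi'
    exact ⟨by omega, (mem_primitiveRoots (pow_pos hr.pos _)).mp hθ'⟩
  · rintro ⟨hi, h⟩
    exact ⟨i, Finset.mem_range.mpr (by omega), Finset.mem_image.mpr
      ⟨θ, (mem_primitiveRoots (pow_pos hr.pos _)).mpr h, rfl⟩⟩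

theorem card_orbClsSet_le {r : ℕ} (hr : r.Prime) (e : ℕ) :
    (orbClsSet k r e).card ≤ cuspCount (r ^ e) := by
  classical
  rw [orb_cuspCount_prime_pow hr]
  unfold orbClsSet
  refine Finset.card_biUnion_le.trans (Finset.sum_le_sum (fun i _ => ?_))
  refine Finset.card_image_le.trans ?_
  by_cases h : (primitiveRoots (r ^ min i (e - i)) k).Nonempty
  · obtain ⟨ζ, hζ⟩ := h
    rw [((mem_primitiveRoots (pow_pos hr.pos _)).mp hζ).card_primitiveRoots]
  · rw [Finset.not_nonempty_iff_eq_empty] at h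
    rw [h, Finset.card_empty]
    exact Nat.zero_le _

end Fermat.Agent.Igusa
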