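/-
T1-A leaf T1A-ORB (helper5), part 2: the path theorem.  Along the chain `X_1, X_r, …, X_{r^e}`
(`r^e ∣ N`) a `κ`-embedding goes up `i₀` times and then down `e - i₀` times.
-/
import Mathlib
import Fermat.Agent.Lib.T1.GoodRed.Orb.Step

set_option autoImplicit false

open Polynomial IntermediateField

noncomputable section

namespace Fermat.Agent.Igusa

namespace TowerData

variable {k Ω : Type*} [Field k] [Field Ω] [Algebra k Ω] (D : TowerData k Ω)

/-- the inductive form of the path theorem (`N = N' r^E`, chain up to `e ≤ E`) -/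
def OrbPre (σ : Lifts k Ω Ω) (r N' E e i₀ : ℕ) (ρ : ℕ → kˣ) : Prop :=
  i₀ ≤ e ∧ (∀ j, j ≤ i₀ → twVal σ (D.xj (r ^ j)) = D.J 1 (N' * r ^ (E + j))) ∧
  (∀ m, i₀ + m ≤ e → twVal σ (D.xj (r ^ (i₀ + m))) = D.J (ρ m) (N' * r ^ (E + i₀ - m))) ∧
  ρ 0 = 1 ∧ (∀ m, i₀ + m + 1 ≤ e → ρ (m + 1) ^ r = ρ m) ∧ (0 < i₀ → i₀ + 1 ≤ e → ρ 1 ≠ 1)

theorem orbPre_zero (σ : Lifts k Ω Ω) (hσ : D.IsKappa σ) {r N' E : ℕ}
    (hN : D.N = N' * r ^ E) : D.OrbPre σ r N' E 0 0 (fun _ => 1) := by
  have h0 : twVal σ (D.xj (r ^ 0)) = D.J 1 (N' * r ^ (E + 0)) := by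
    rw [pow_zero, hσ.2, add_zero, ← hN, xj, mul_one]
  refine ⟨le_rfl, ?_, ?_, rfl, ?_, ?_⟩
  · intro j hj
    have : j = 0 := by omega
    subst this
    exact h0
  · intro m hm
    have : m = 0 := by omega
    subst this
    exact h0
  · intro m hm
    omega
  · intro h
    omega

/-- extending a path by a down-step -/
theorem orbPre_down (σ : Lifts k Ω Ω) {r N' E e i₀ : ℕ} {ρ : ℕ → kˣ}
    (h : D.OrbPre σ r N' E e i₀ ρ) {c' : kˣ} (hc' : c' ^ r = ρ (e - i₀))
    (hv : twVal σ (D.xj (r ^ (e + 1))) = D.J c' (N' * r ^ (E + i₀ - (e - i₀ + 1))))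
    (hne : 0 < i₀ → i₀ = e → c' ≠ 1) :
    D.OrbPre σ r N' E (e + 1) i₀ (Function.update ρ (e - i₀ + 1) c') := by
  obtain ⟨hi, ha, hb, hc, hd, he⟩ := h
  refine ⟨by omega, ha, ?_, ?_, ?_, ?_⟩
  · intro m hm
    rcases Nat.lt_or_ge m (e - i₀ + 1) with h1 | h1
    · rw [Function.update_of_ne (by omega)]
      exact hb m (by omega)
    · have h2 : m = e - i₀ + 1 := by omega
      subst h2
      rw [Function.update_self]
      have h3 : i₀ + (e - i₀ + 1) = e + 1 := by omega
      rw [h3]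
      exact hv
  · rw [Function.update_of_ne (by omega)]
    exact hc
  · intro m hm
    rcases Nat.lt_or_ge (m + 1) (e - i₀ + 1) with h1 | h1
    · rw [Function.update_of_ne (by omega), Function.update_of_ne (by omega)]
      exact hd m (by omega)
    · have h2 : m = e - i₀ := by omega
      subst h2
      rw [Function.update_self, Function.update_of_ne (by omega)]
      exact hc'
  · intro h0 h1
    rcases Nat.lt_or_ge i₀ e with h2 | h2
    · rw [Function.update_of_ne (by omega)]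
      exact he h0 (by omega)
    · have h3 : i₀ = e := by omega
      have h4 : e - i₀ + 1 = 1 := by omega
      rw [h4, Function.update_self]
      exact hne h0 h3

/-- extending a path by an up-step (only possible at the top) -/
theorem orbPre_up (σ : Lifts k Ω Ω) {r N' E e : ℕ} {ρ : ℕ → kˣ}
    (h : D.OrbPre σ r N' E e e ρ)
    (hv : twVal σ (D.xj (r ^ (e + 1))) = D.J 1 (N' * r ^ (E + (e + 1)))) :
    D.OrbPre σ r N' E (e + 1) (e + 1) ρ := by
  obtain ⟨hi, ha, hb, hc, hd, he⟩ := h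
  refine ⟨le_rfl, ?_, ?_, hc, ?_, ?_⟩
  · intro j hj
    rcases Nat.lt_or_ge j (e + 1) with h1 | h1
    · exact ha j (by omega)
    · have h2 : j = e + 1 := by omega
      subst h2
      exact hv
  · intro m hm
    have h2 : m = 0 := by omega
    subst h2
    rw [hc, add_zero, Nat.sub_zero]
    exact hv
  · intro m hm
    omega
  · intro _ h1
    omega

theorem orb_pow_div {N' r a : ℕ} (hr : 0 < r) : N' * r ^ (a + 1) / r = N' * r ^ a := by
  rw [pow_succ, ← mul_assoc, Nat.mul_div_cancel _ hr]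

/-- **the path theorem, inductive form** -/
theorem orb_pre (σ : Lifts k Ω Ω) (hσ : D.IsKappa σ) {r N' E : ℕ} (hr : r.Prime)
    (hN : D.N = N' * r ^ E) :
    ∀ e, e ≤ E → (∀ j, j ≤ e → D.xj (r ^ j) ∈ σ.carrier) →
      ∃ (i₀ : ℕ) (ρ : ℕ → kˣ), D.OrbPre σ r N' E e i₀ ρ := by
  have hN'pos : 0 < N' := Nat.pos_of_ne_zero (by
    rintro rfl
    have := D.N_pos
    rw [hN, zero_mul] at this
    exact lt_irrefl _ this)
  intro e
  induction e with
  | zero =>
    intro _ _
    exact ⟨0, fun _ => 1, D.orbPre_zero σ hσ hN⟩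
  | succ e ih =>
    intro heE hmem
    have hrN : r ∣ D.N := by
      rw [hN]
      exact Dvd.dvd.mul_left (dvd_pow_self r (by omega)) N'
    obtain ⟨i₀, ρ, h⟩ := ih (by omega) (fun j hj => hmem j (by omega))
    have h' := h
    obtain ⟨hi, ha, hb, hc, hd, he⟩ := h'
    -- the current endpoint
    obtain ⟨a, haE⟩ : ∃ a, E + i₀ - (e - i₀) = a + 1 := ⟨E + i₀ - (e - i₀) - 1, by omega⟩
    have hie : i₀ + (e - i₀) = e := by omega
    have hv := hb (e - i₀) (by omega)
    rw [hie, haE] at hv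
    have hn : 0 < N' * r ^ (a + 1) := Nat.mul_pos hN'pos (pow_pos hr.pos _)
    have hrn : r ∣ N' * r ^ (a + 1) := Dvd.dvd.mul_left (dvd_pow_self r (by omega)) N'
    have hdiv : N' * r ^ (a + 1) / r = N' * r ^ a := orb_pow_div hr.pos
    have hexp : E + i₀ - (e - i₀ + 1) = a := by omega
    rcases Nat.lt_or_ge i₀ e with hlt | hge
    · -- the last step was a down-step
      obtain ⟨e', rfl⟩ : ∃ e', e = e' + 1 := ⟨e - 1, by omega⟩
      have hv0 := hb (e' - i₀) (by omega)
      have h1 : i₀ + (e' - i₀) = e' := by omega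
      have h2 : E + i₀ - (e' - i₀) = a + 1 + 1 := by omega
      rw [h1, h2, pow_succ, ← mul_assoc] at hv0
      obtain ⟨c'', hc'', hv2⟩ := D.orb_step_down_down σ hr hrN (hmem e' (by omega))
        (hmem (e' + 1) (by omega)) (hmem (e' + 1 + 1) le_rfl) hn hrn hv0 hv
      rw [hdiv] at hv2
      refine ⟨i₀, _, D.orbPre_down σ h hc'' ?_ (fun _ h3 => by omega)⟩
      rw [hexp]
      exact hv2
    · have hie' : i₀ = e := by omega
      subst hie'
      rcases D.orb_step_fwd σ hr hrN (hmem i₀ (by omega)) (hmem (i₀ + 1) le_rfl) hn hrn hv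
        with h3 | ⟨c', hc', h3⟩
      · -- up
        refine ⟨i₀ + 1, ρ, D.orbPre_up σ h ?_⟩
        rw [h3, Nat.sub_self, hc, one_pow]
        congr 1
        have : E + (i₀ + 1) = a + 1 + 1 := by omega
        rw [this, pow_succ (n := a + 1), mul_assoc]
      · -- down
        rw [hdiv] at h3
        refine ⟨i₀, _, D.orbPre_down σ h hc' ?_ ?_⟩
        · rw [hexp]
          exact h3
        · intro h0 _ hc1
          obtain ⟨e', rfl⟩ : ∃ e', i₀ = e' + 1 := ⟨i₀ - 1, by omega⟩
          have h4 := ha e' (by omega)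
          have h5 : E + e' = a := by omega
          rw [h5] at h4
          rw [hc1, ← h4] at h3
          exact D.orb_twVal_ne σ hr (hmem (e' + 1 + 1) le_rfl) (hmem e' (by omega))
            (by omega) h3

end TowerData

end Fermat.Agent.Igusa
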