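/-
T1-A leaf T1A-ORB (helper5), part 3: the path theorem in closed form; the endpoint determines
the path.
-/
import Mathlib
import Fermat.Agent.Lib.T1.GoodRed.Orb.Path

set_option autoImplicit false

open Polynomial IntermediateField

noncomputable section

namespace Fermat.Agent.Igusa

namespace TowerData

variable {k Ω : Type*} [Field k] [Field Ω] [Algebra k Ω] (D : TowerData k Ω)

/-- the path of `σ` along the prime `r` (`N = N' r^e`): `i₀` up-steps, endpoint constant `c` -/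
def OrbPath (σ : Lifts k Ω Ω) (r N' e i₀ : ℕ) (c : kˣ) : Prop :=
  i₀ ≤ e ∧
  (∀ j, j ≤ e → twVal σ (D.xj (r ^ j)) =
    D.J (c ^ r ^ (e - j)) (N' * r ^ (e + j - 2 * (j - i₀)))) ∧
  c ^ r ^ (e - i₀) = 1 ∧ (0 < i₀ → i₀ < e → c ^ r ^ (e - i₀ - 1) ≠ 1)

theorem orbPath_of_pre (σ : Lifts k Ω Ω) {r N' e i₀ : ℕ} {ρ : ℕ → kˣ}
    (h : D.OrbPre σ r N' e e i₀ ρ) : D.OrbPath σ r N' e i₀ (ρ (e - i₀)) := by
  obtain ⟨hi, ha, hb, hc, hd, he⟩ := h
  set c := ρ (e - i₀) with hcdef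
  have hρ : ∀ d m, m + d = e - i₀ → ρ m = c ^ r ^ d := by
    intro d
    induction d with
    | zero =>
      intro m hm
      have : m = e - i₀ := by omega
      rw [this, pow_zero, pow_one]
    | succ d ih =>
      intro m hm
      rw [← hd m (by omega), ih (m + 1) (by omega), ← pow_mul, pow_succ]
  have h0 : c ^ r ^ (e - i₀) = 1 := by
    rw [← hρ (e - i₀) 0 (by omega)]
    exact hc
  refine ⟨hi, ?_, h0, ?_⟩
  · intro j hj
    rcases Nat.lt_or_ge i₀ j with h1 | h1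
    · obtain ⟨m, rfl⟩ : ∃ m, j = i₀ + m := ⟨j - i₀, by omega⟩
      have hexp : e + (i₀ + m) - 2 * (i₀ + m - i₀) = e + i₀ - m := by omega
      rw [hb m hj, hρ (e - (i₀ + m)) m (by omega), hexp]
    · rw [ha j h1]
      have h2 : e - j = (e - i₀) + (i₀ - j) := by omega
      have hc1 : c ^ r ^ (e - j) = 1 := by rw [h2, pow_add, pow_mul, h0, one_pow]
      have hexp : e + j - 2 * (j - i₀) = e + j := by omega
      rw [hc1, hexp]
  · intro h1 h2
    rw [← hρ (e - i₀ - 1) 1 (by omega)]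
    exact he h1 (by omega)

/-- **the path theorem** -/
theorem orb_path (σ : Lifts k Ω Ω) (hσ : D.IsKappa σ) {r N' e : ℕ} (hr : r.Prime)
    (hN : D.N = N' * r ^ e) (hmem : ∀ j, j ≤ e → D.xj (r ^ j) ∈ σ.carrier) :
    ∃ (i₀ : ℕ) (c : kˣ), D.OrbPath σ r N' e i₀ c := by
  obtain ⟨i₀, ρ, h⟩ := D.orb_pre σ hσ hr hN e le_rfl hmem
  exact ⟨i₀, ρ (e - i₀), D.orbPath_of_pre σ h⟩

theorem orb_pos_of_eq {r N' e : ℕ} (hN : D.N = N' * r ^ e) : 0 < N' :=
  Nat.pos_of_ne_zero (by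
    rintro rfl
    have := D.N_pos
    rw [hN, zero_mul] at this
    exact lt_irrefl _ this)

/-- the value at the endpoint -/
theorem orbPath_endpoint {σ : Lifts k Ω Ω} {r N' e i₀ : ℕ} {c : kˣ}
    (h : D.OrbPath σ r N' e i₀ c) :
    twVal σ (D.xj (r ^ e)) = D.J c (N' * r ^ (2 * i₀)) := by
  obtain ⟨hi, hb, -, -⟩ := h
  have hexp : e + e - 2 * (e - i₀) = 2 * i₀ := by omega
  rw [hb e le_rfl, Nat.sub_self, pow_zero, pow_one, hexp]

/-- **the endpoint determines the path data** -/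
theorem orbPath_unique {σ σ' : Lifts k Ω Ω} {r N' e i₀ i₀' : ℕ} {c c' : kˣ} (hr : r.Prime)
    (hN : D.N = N' * r ^ e) (h : D.OrbPath σ r N' e i₀ c) (h' : D.OrbPath σ' r N' e i₀' c')
    (heq : twVal σ (D.xj (r ^ e)) = twVal σ' (D.xj (r ^ e))) : i₀ = i₀' ∧ c = c' := by
  have hN' := D.orb_pos_of_eq hN
  rw [D.orbPath_endpoint h, D.orbPath_endpoint h'] at heq
  obtain ⟨h1, h2⟩ := D.J_inj (Nat.mul_pos hN' (pow_pos hr.pos _))
    (Nat.mul_pos hN' (pow_pos hr.pos _)) heq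
  have h3 : r ^ (2 * i₀) = r ^ (2 * i₀') := Nat.eq_of_mul_eq_mul_left hN' h1
  have h4 := Nat.pow_right_injective hr.two_le h3
  exact ⟨by omega, h2⟩

/-- **the endpoint determines the path** -/
theorem orbPath_values_eq {σ σ' : Lifts k Ω Ω} {r N' e i₀ i₀' : ℕ} {c c' : kˣ} (hr : r.Prime)
    (hN : D.N = N' * r ^ e) (h : D.OrbPath σ r N' e i₀ c) (h' : D.OrbPath σ' r N' e i₀' c')
    (heq : twVal σ (D.xj (r ^ e)) = twVal σ' (D.xj (r ^ e))) :
    ∀ j, j ≤ e → twVal σ (D.xj (r ^ j)) = twVal σ' (D.xj (r ^ j)) := by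
  obtain ⟨rfl, rfl⟩ := D.orbPath_unique hr hN h h' heq
  intro j hj
  rw [h.2.1 j hj, h'.2.1 j hj]

end TowerData

end Fermat.Agent.Igusa
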