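/-
T1-A leaf T1A-ORB (helper5), part 6: the class of a `κ`-embedding of `k(X_{r^i} : r^i ∣ N)`.
-/
import Mathlib
import Fermat.Agent.Lib.T1.GoodRed.Orb.Inv
import Fermat.Agent.Lib.T1.GoodRed.Orb.Count

set_option autoImplicit false

open Polynomial IntermediateField

noncomputable section

namespace Fermat.Agent.Igusa

namespace TowerData

variable {k Ω : Type*} [Field k] [Field Ω] [Algebra k Ω] (D : TowerData k Ω)

/-- the generators `X_1`, `X_{r^i}` (`r` prime, `0 < i`, `r^i ∣ M`): `towerGens` without the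
units `U_r` -/
def orbGens (M : ℕ) : Set Ω :=
  {D.xj 1} ∪ {x | ∃ r i : ℕ, r.Prime ∧ 0 < i ∧ r ^ i ∣ M ∧ x = D.xj (r ^ i)}

/-- the field `k(X_{r^i} : r^i ∣ M)` -/
def orbK (M : ℕ) : IntermediateField k Ω := adjoin k (D.orbGens M)

theorem orbGens_subset_towerGens (M : ℕ) : D.orbGens M ⊆ D.towerGens M :=
  Set.subset_union_left

theorem orbK_le_KM (M : ℕ) : D.orbK M ≤ D.KM M :=
  adjoin.mono k _ _ (D.orbGens_subset_towerGens M)

theorem xj_one_mem_orbK (M : ℕ) : D.xj 1 ∈ D.orbK M :=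
  subset_adjoin k _ (Or.inl rfl)

theorem xj_pow_mem_orbK {M r i : ℕ} (hr : r.Prime) (h : r ^ i ∣ M) : D.xj (r ^ i) ∈ D.orbK M := by
  rcases Nat.eq_zero_or_pos i with rfl | hi
  · rw [pow_zero]; exact D.xj_one_mem_orbK M
  · exact subset_adjoin k _ (Or.inr ⟨r, i, hr, hi, h, rfl⟩)

/-- an embedding of `K` as a partial embedding -/
def orbLift (K : IntermediateField k Ω) (σ : ↥K →ₐ[k] Ω) : Lifts k Ω Ω := ⟨K, σ⟩

theorem twVal_orbLift (K : IntermediateField k Ω) (σ : ↥K →ₐ[k] Ω) {x : Ω} (hx : x ∈ K) :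
    twVal (orbLift K σ) x = σ ⟨x, hx⟩ :=
  twVal_eq (orbLift K σ) (show x ∈ (orbLift K σ).carrier from hx)

/-- `σ` is an embedding over `κ = k(X_1)` -/
def OrbKappa (K : IntermediateField k Ω) (σ : ↥K →ₐ[k] Ω) : Prop :=
  ∀ x : ↥K, (x : Ω) = D.xj 1 → σ x = D.xj 1

theorem OrbKappa.isKappa {K : IntermediateField k Ω} {σ : ↥K →ₐ[k] Ω} (h : D.OrbKappa K σ)
    (h1 : D.xj 1 ∈ K) : D.IsKappa (orbLift K σ) :=
  ⟨h1, by rw [twVal_orbLift K σ h1]; exact h ⟨_, h1⟩ rfl⟩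

/-- `N = (N / r^e) r^e`, `e = v_r(N)` -/
theorem orb_decomp (r : ℕ) : D.N = D.N / r ^ D.N.factorization r * r ^ D.N.factorization r :=
  (Nat.div_mul_cancel (Nat.ordProj_dvd D.N r)).symm

theorem orb_exists_path {K : IntermediateField k Ω} (hK : K = D.orbK D.N) {σ : ↥K →ₐ[k] Ω}
    (hσ : D.OrbKappa K σ) {r : ℕ} (hr : r.Prime) :
    ∃ (i₀ : ℕ) (c : kˣ), D.OrbPath (orbLift K σ) r (D.N / r ^ D.N.factorization r)
      (D.N.factorization r) i₀ c := by
  subst hK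
  refine D.orb_path (orbLift _ σ) (hσ.isKappa D (D.xj_one_mem_orbK _)) hr (D.orb_decomp r) ?_
  intro j hj
  exact D.xj_pow_mem_orbK hr ((pow_dvd_pow r hj).trans (Nat.ordProj_dvd D.N r))

open Classical in
/-- the path data `(i₀, c)` of `σ` at the prime `r` -/
def orbData (K : IntermediateField k Ω) (σ : ↥K →ₐ[k] Ω) (r : ℕ) : ℕ × kˣ :=
  if h : ∃ (i₀ : ℕ) (c : kˣ), D.OrbPath (orbLift K σ) r (D.N / r ^ D.N.factorization r)
      (D.N.factorization r) i₀ c then (h.choose, h.choose_spec.choose) else (0, 1)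

theorem orbData_spec {K : IntermediateField k Ω} (hK : K = D.orbK D.N) {σ : ↥K →ₐ[k] Ω}
    (hσ : D.OrbKappa K σ) {r : ℕ} (hr : r.Prime) :
    D.OrbPath (orbLift K σ) r (D.N / r ^ D.N.factorization r) (D.N.factorization r)
      (D.orbData K σ r).1 (D.orbData K σ r).2 := by
  have h := D.orb_exists_path hK hσ hr
  rw [orbData, dif_pos h]
  exact h.choose_spec.choose_spec

/-- the class of `σ`: for each prime `r` the pair `(i₀, θ)`, `θ = c ^ r^(e - 2 i₀)` -/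
def orbCls (K : IntermediateField k Ω) (σ : ↥K →ₐ[k] Ω) (r : ℕ) : ℕ × k :=
  ((D.orbData K σ r).1,
    (((D.orbData K σ r).2 ^ r ^ (D.N.factorization r - 2 * (D.orbData K σ r).1) : kˣ) : k))

/-- `θ` is a primitive `r^min(i₀, e - i₀)`-th root of unity -/
theorem orbPath_theta {σ : Lifts k Ω Ω} {r N' e i₀ : ℕ} {c : kˣ} (hr : r.Prime)
    (h : D.OrbPath σ r N' e i₀ c) :
    IsPrimitiveRoot (c ^ r ^ (e - 2 * i₀)) (r ^ min i₀ (e - i₀)) := by
  obtain ⟨hi, -, h3, h4⟩ := h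
  rcases Nat.eq_zero_or_pos i₀ with rfl | h0
  · rw [Nat.sub_zero] at h3
    rw [Nat.mul_zero, Nat.sub_zero, h3, Nat.zero_min, pow_zero]
    exact IsPrimitiveRoot.one
  rcases Nat.lt_or_ge i₀ e with hlt | hge
  · have : Fact r.Prime := ⟨hr⟩
    obtain ⟨m, hm⟩ : ∃ m, e - i₀ = m + 1 := ⟨e - i₀ - 1, by omega⟩
    have hm' : e - i₀ - 1 = m := by omega
    have h4' := h4 h0 hlt
    rw [hm'] at h4'
    rw [hm] at h3
    have hord := orderOf_eq_prime_pow h4' h3
    have hc : IsPrimitiveRoot c (r ^ (m + 1)) := by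
      rw [← hord]
      exact IsPrimitiveRoot.orderOf c
    rcases Nat.le_total (2 * i₀) e with h2 | h2
    · have hmin : min i₀ (e - i₀) = i₀ := min_eq_left (by omega)
      rw [hmin]
      refine hc.pow (pow_pos hr.pos _) ?_
      rw [← pow_add]
      congr 1
      omega
    · have hmin : min i₀ (e - i₀) = e - i₀ := min_eq_right (by omega)
      have h5 : e - 2 * i₀ = 0 := by omega
      rw [hmin, h5, pow_zero, pow_one, hm]
      exact hc
  · have hie : i₀ = e := by omega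
    subst hie
    rw [Nat.sub_self, pow_zero, pow_one] at h3
    rw [h3, one_pow, Nat.sub_self, Nat.min_zero, pow_zero]
    exact IsPrimitiveRoot.one

theorem orbCls_mem {K : IntermediateField k Ω} (hK : K = D.orbK D.N) {σ : ↥K →ₐ[k] Ω}
    (hσ : D.OrbKappa K σ) {r : ℕ} (hr : r.Prime) :
    D.orbCls K σ r ∈ orbClsSet k r (D.N.factorization r) := by
  have h := D.orbData_spec hK hσ hr
  rw [orbCls, mem_orbClsSet k hr]
  exact ⟨h.1, IsPrimitiveRoot.coe_units_iff.mpr (D.orbPath_theta hr h)⟩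

end TowerData

end Fermat.Agent.Igusa
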