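/-
T1-A leaf T1A-U (helper5), abstract part: in the abstract Puiseux tower the unit `U_r` lies in
`k(X_1, X_r)`; hence `K_M = k(X_{r^i} : r^i ∣ M)`.

Proof: if `U_r ∉ K' = k(X_1, X_r)` then (twist lemma, `exists_lift_ur_eq_yb`) there is an embedding
`σ ⊇ id_{K'}` with `σ(U_r) = f̄_r(q^{1/r})`, and then (`chain_one`) `σ(X_r) = j̄(c q^{1/r})`; but
`σ(X_r) = X_r = j̄(q^r)`.
-/
import Mathlib
import Fermat.Agent.Lib.T1.GoodRed.Orb.Cls

set_option autoImplicit false

open Polynomial IntermediateField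

noncomputable section

namespace Fermat.Agent.Igusa

namespace TowerData

variable {k Ω : Type*} [Field k] [Field Ω] [Algebra k Ω] (D : TowerData k Ω)

/-- **`U_r ∈ k(X_1, X_r)`** -/
theorem ur_mem_adjoin_xj {r : ℕ} (hr : r.Prime) (hrN : r ∣ D.N) :
    D.ur r ∈ adjoin k {D.xj 1, D.xj r} := by
  by_contra hU
  set K : IntermediateField k Ω := adjoin k {D.xj 1, D.xj r} with hKdef
  have h1 : D.xj 1 ∈ K := subset_adjoin k _ (Set.mem_insert _ _)
  have hXr : D.xj r ∈ K := subset_adjoin k _ (Set.mem_insert_of_mem _ rfl)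
  have hK : K ≤ D.lev D.N := by
    rw [hKdef, adjoin_le_iff]
    rintro x (rfl | hx)
    · exact D.xj_mem_lev 1 dvd_rfl
    · rw [Set.mem_singleton_iff] at hx
      rw [hx]
      exact D.xj_mem_lev r dvd_rfl
  obtain ⟨σ, hid, hUσ, hval⟩ := D.exists_lift_ur_eq_yb K h1 hK hr hrN hU
  have hκ : D.IsKappa σ := ⟨hid.1 h1, twVal_of_twId_le hid h1⟩
  obtain ⟨c, hc⟩ := D.chain_one σ hκ hr hrN hUσ (hid.1 hXr) hval
  rw [twVal_of_twId_le hid hXr, xj] at hc
  obtain ⟨a, ha⟩ := hrN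
  have hapos : 0 < a := Nat.pos_of_ne_zero (by
    rintro rfl
    have := D.N_pos
    rw [ha, mul_zero] at this
    exact lt_irrefl _ this)
  have hNr : D.N / r = a := by rw [ha, Nat.mul_div_cancel_left _ hr.pos]
  have h2 := (D.J_inj (Nat.mul_pos D.N_pos hr.pos) (by rw [hNr]; exact hapos) hc).1
  rw [hNr, ha] at h2
  have h3 := hr.two_le
  nlinarith

theorem towerGens_subset_orbK (M : ℕ) (hM : M ∣ D.N) :
    D.towerGens M ⊆ (D.orbK M : Set Ω) := by
  rintro x ((hx | ⟨r, i, hr, hi, hri, rfl⟩) | ⟨r, hr, hrM, rfl⟩)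
  · rw [Set.mem_singleton_iff] at hx
    rw [hx]
    exact D.xj_one_mem_orbK M
  · exact D.xj_pow_mem_orbK hr hri
  · have h1 : adjoin k {D.xj 1, D.xj r} ≤ D.orbK M := by
      rw [adjoin_le_iff]
      rintro x (rfl | hx)
      · exact D.xj_one_mem_orbK M
      · rw [Set.mem_singleton_iff] at hx
        rw [hx]
        have := D.xj_pow_mem_orbK (M := M) (i := 1) hr (by rwa [pow_one])
        rwa [pow_one] at this
    exact h1 (D.ur_mem_adjoin_xj hr (hrM.trans hM))

/-- **`K_M = k(X_{r^i} : r^i ∣ M)`**: the units are superfluous -/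
theorem KM_eq_orbK {M : ℕ} (hM : M ∣ D.N) : D.KM M = D.orbK M := by
  apply le_antisymm
  · rw [KM, adjoin_le_iff]
    exact D.towerGens_subset_orbK M hM
  · exact D.orbK_le_KM M

end TowerData

end Fermat.Agent.Igusa
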