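/-
T1-A leaf T1A-ORB (helper5), part 4 (pure group theory in `kˣ`): the simultaneous solution of
`ω ^ (N / r^e · r^(2 i₀)) = δ_r` for the primes `r ∣ N`.
-/
import Mathlib

set_option autoImplicit false

namespace Fermat.Agent.Igusa

variable {k : Type*} [Field k]

/-- one prime: `η ∈ μ_{r^e}` with `η ^ (N' r^(2 i₀)) = δ` for `δ ∈ μ_{r^(e - 2 i₀)}` -/
theorem orb_exists_eta {ω₀ : kˣ} {N N' r e i₀ : ℕ} (hN0 : 0 < N) (hω₀ : IsPrimitiveRoot ω₀ N)
    (hr : r.Prime) (hN : N = N' * r ^ e) (hcop : ¬ r ∣ N') {δ : kˣ}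
    (hδ : δ ^ r ^ (e - 2 * i₀) = 1) :
    ∃ η : kˣ, η ^ r ^ e = 1 ∧ η ^ (N' * r ^ (2 * i₀)) = δ := by
  rcases Nat.lt_or_ge (2 * i₀) e with hlt | hge
  · obtain ⟨ζ, hζ⟩ : ∃ ζ : kˣ, IsPrimitiveRoot ζ (r ^ e) := ⟨_, hω₀.pow hN0 hN⟩
    have hcop' : N'.Coprime (r ^ e) :=
      Nat.Coprime.pow_right e ((Nat.Prime.coprime_iff_not_dvd hr).mpr hcop).symm
    have hζ' : IsPrimitiveRoot (ζ ^ N') (r ^ e) := hζ.pow_of_coprime N' hcop'
    have hsplit : r ^ e = r ^ (2 * i₀) * r ^ (e - 2 * i₀) := by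
      rw [← pow_add]
      congr 1
      omega
    have hξ : IsPrimitiveRoot ((ζ ^ N') ^ r ^ (2 * i₀)) (r ^ (e - 2 * i₀)) :=
      hζ'.pow (pow_pos hr.pos _) hsplit
    have : NeZero (r ^ (e - 2 * i₀)) := ⟨(pow_pos hr.pos _).ne'⟩
    obtain ⟨a, -, ha⟩ := hξ.eq_pow_of_mem_rootsOfUnity ((mem_rootsOfUnity _ δ).mpr hδ)
    refine ⟨ζ ^ a, ?_, ?_⟩
    · rw [← pow_mul, mul_comm, pow_mul, hζ.pow_eq_one, one_pow]
    · rw [← ha, ← pow_mul, ← pow_mul, ← pow_mul]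
      congr 1
      ring
  · have h0 : e - 2 * i₀ = 0 := by omega
    rw [h0, pow_zero, pow_one] at hδ
    exact ⟨1, one_pow _, by rw [one_pow, hδ]⟩

/-- all primes simultaneously -/
theorem orb_exists_omega {N : ℕ} (hN0 : 0 < N) {ω₀ : kˣ} (hω₀ : IsPrimitiveRoot ω₀ N)
    (i₀ : ℕ → ℕ) (δ : ℕ → kˣ)
    (hδ : ∀ r ∈ N.primeFactors, δ r ^ r ^ (N.factorization r - 2 * i₀ r) = 1) :
    ∃ ω : kˣ, ω ^ N = 1 ∧
      ∀ r ∈ N.primeFactors, ω ^ (N / r ^ N.factorization r * r ^ (2 * i₀ r)) = δ r := by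
  classical
  have hdecomp : ∀ r : ℕ, N = N / r ^ N.factorization r * r ^ N.factorization r := fun r =>
    (Nat.div_mul_cancel (Nat.ordProj_dvd N r)).symm
  have hex : ∀ r : ℕ, ∃ η : kˣ, r ∈ N.primeFactors →
      η ^ r ^ N.factorization r = 1 ∧ η ^ (N / r ^ N.factorization r * r ^ (2 * i₀ r)) = δ r := by
    intro r
    by_cases hr : r ∈ N.primeFactors
    · have hrp : r.Prime := Nat.prime_of_mem_primeFactors hr
      obtain ⟨η, h1, h2⟩ := orb_exists_eta hN0 hω₀ hrp (hdecomp r)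
        (Nat.not_dvd_ordCompl hrp hN0.ne') (hδ r hr)
      exact ⟨η, fun _ => ⟨h1, h2⟩⟩
    · exact ⟨1, fun h => absurd h hr⟩
  choose η hη using hex
  refine ⟨∏ s ∈ N.primeFactors, η s, ?_, ?_⟩
  · rw [← Finset.prod_pow]
    apply Finset.prod_eq_one
    intro s hs
    rw [hdecomp s, mul_comm, pow_mul, (hη s hs).1, one_pow]
  · intro r hr
    have hrp : r.Prime := Nat.prime_of_mem_primeFactors hr
    rw [← Finset.prod_pow, Finset.prod_eq_single r]
    · exact (hη r hr).2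
    · intro s hs hsr
      have hsp : s.Prime := Nat.prime_of_mem_primeFactors hs
      have hcop : (s ^ N.factorization s).Coprime (r ^ N.factorization r) :=
        Nat.Coprime.pow _ _ ((Nat.coprime_primes hsp hrp).mpr hsr)
      have hdvd : s ^ N.factorization s ∣ N / r ^ N.factorization r := by
        apply hcop.dvd_of_dvd_mul_right
        rw [← hdecomp r]
        exact Nat.ordProj_dvd N s
      obtain ⟨t, ht⟩ := hdvd
      rw [ht, mul_assoc, pow_mul, (hη s hs).1, one_pow]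
    · intro h
      exact absurd hr h

end Fermat.Agent.Igusa
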