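/-
T1-A (helper5), T1A-CUSP, abstract part 2: the shape lemma for embeddings into an arbitrary
extension `Ω'` of `Ω`: if `E` is a field with elements `X d` (`d ∣ N`) satisfying the modular
relations `Φ_r(X_{d r}, X_d) = 0`, every `k`-embedding `τ : E → Ω'` with `τ(X_1) = X_1` maps each
`X_d` into `Ω` (to some `J(c, n)`).
-/
import Mathlib
import Fermat.Agent.Lib.T1.GoodRed.Orb.Step

set_option autoImplicit false

open Polynomial IntermediateField

noncomputable section

namespace Fermat.Agent.Igusa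

variable {k Ω : Type*} [Field k] [Field Ω] [Algebra k Ω]

/-- `twEv` commutes with algebra homomorphisms -/
theorem orb_twEv_algHom {A B : Type*} [Field A] [Algebra k A] [Field B] [Algebra k B]
    (φ : A →ₐ[k] B) (x : A) :
    (φ : A →+* B).comp (twEv (k := k) x) = twEv (k := k) (φ x) := by
  apply Polynomial.ringHom_ext
  · intro a
    simp [twEv]
  · simp [twEv]

theorem orb_eval_biv_algHom {A B : Type*} [Field A] [Algebra k A] [Field B] [Algebra k B]
    (φ : A →ₐ[k] B) (x s : A) (P : Polynomial (Polynomial k)) :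
    φ ((P.map (twEv x)).eval s) = (P.map (twEv (φ x))).eval (φ s) := by
  rw [eval_map, eval_map, ← orb_twEv_algHom φ x]
  exact Polynomial.hom_eval₂ P (twEv x) (φ : A →+* B) s

theorem orb_map_biv_algHom {A B : Type*} [Field A] [Algebra k A] [Field B] [Algebra k B]
    (φ : A →ₐ[k] B) (x : A) (P : Polynomial (Polynomial k)) :
    (P.map (twEv x)).map (φ : A →+* B) = P.map (twEv (φ x)) := by
  rw [Polynomial.map_map, orb_twEv_algHom φ x]

namespace TowerData

variable (D : TowerData k Ω) {Ω' : Type*} [Field Ω'] [Algebra k Ω'] (ι : Ω →ₐ[k] Ω')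

/-- the roots of `Φ_r(X, ι(J(c₀^r, n)))` in an extension `Ω'` of `Ω` -/
theorem Phi_root_cases_ext (c₀ : kˣ) {ζ : kˣ} {r n : ℕ} (hr : r.Prime) (hrN : r ∣ D.N)
    (hζ : IsPrimitiveRoot ζ r) (hrn : r ∣ n) (hn : 0 < n) {z : Ω'}
    (hz : ((D.Phi r).map (twEv (ι (D.J (c₀ ^ r) n)))).eval z = 0) :
    z = ι (D.J (c₀ ^ (r ^ 2)) (n * r)) ∨ ∃ b, b < r ∧ z = ι (D.J (ζ ^ b * c₀) (n / r)) := by
  rw [← orb_map_biv_algHom ι, D.Phi_roots c₀ hr hrN hζ hrn hn, Polynomial.map_mul,
    Polynomial.map_prod, eval_mul, eval_prod, mul_eq_zero, Finset.prod_eq_zero_iff] at hz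
  rcases hz with hz | ⟨b, hb, hz⟩
  · left
    rw [Polynomial.map_sub, map_X, map_C, eval_sub, eval_X, eval_C, sub_eq_zero] at hz
    exact hz
  · right
    rw [Polynomial.map_sub, map_X, map_C, eval_sub, eval_X, eval_C, sub_eq_zero] at hz
    exact ⟨b, Finset.mem_range.mp hb, hz⟩

/-- **the shape lemma in an extension** -/
theorem shape_ext {E : Type*} [Field E] [Algebra k E] (X : ℕ → E)
    (hrel : ∀ r d : ℕ, r.Prime → 0 < d → d * r ∣ D.N →
      ((D.Phi r).map (twEv (X d))).eval (X (d * r)) = 0)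
    (τ : E →ₐ[k] Ω') (h1 : τ (X 1) = ι (D.xj 1)) :
    ∀ d : ℕ, d ∣ D.N → ∃ (c : kˣ) (a b n : ℕ), a * b = d ∧ n * b = D.N * a ∧
      τ (X d) = ι (D.J c n) := by
  intro d
  induction d using Nat.strong_induction_on with
  | _ d ih =>
    intro hdN
    have hdpos : 0 < d := Nat.pos_of_dvd_of_pos hdN D.N_pos
    by_cases hd1 : d = 1
    · subst hd1
      exact ⟨1, 1, 1, D.N * 1, by simp, by simp, h1⟩
    obtain ⟨r, hr, hrd⟩ : ∃ r : ℕ, r.Prime ∧ r ∣ d :=
      ⟨d.minFac, Nat.minFac_prime hd1, Nat.minFac_dvd d⟩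
    obtain ⟨d', rfl⟩ : ∃ d', d = d' * r := ⟨d / r, (Nat.div_mul_cancel hrd).symm⟩
    have hd'pos : 0 < d' := Nat.pos_of_ne_zero (by rintro rfl; omega)
    have hd'lt : d' < d' * r := by have := hr.two_le; nlinarith
    have hrN : r ∣ D.N := hrd.trans hdN
    obtain ⟨c, a, b, n, hab, hn, hτ⟩ := ih d' hd'lt ((Dvd.intro _ rfl).trans hdN)
    -- `r ∣ n`, `0 < n`
    have ha : 0 < a := Nat.pos_of_ne_zero (by rintro rfl; simp at hab; omega)
    have hb : 0 < b := Nat.pos_of_ne_zero (by rintro rfl; simp at hab; omega)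
    have hbr : b * r ∣ D.N := by
      refine Dvd.dvd.trans ?_ hdN
      exact Nat.mul_dvd_mul_right (Dvd.intro_left a hab) r
    obtain ⟨N₂, hN₂⟩ := hbr
    have hn1 : n = r * N₂ * a := by
      apply Nat.eq_of_mul_eq_mul_right hb
      rw [hn, hN₂]
      ring
    have hN₂pos : 0 < N₂ := Nat.pos_of_ne_zero (by
      rintro rfl
      have := D.N_pos
      rw [hN₂] at this
      simp at this)
    have hrn : r ∣ n := ⟨N₂ * a, by rw [hn1]; ring⟩
    have hnpos : 0 < n := by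
      rw [hn1]
      exact Nat.mul_pos (Nat.mul_pos hr.pos hN₂pos) ha
    obtain ⟨c₀, rfl⟩ := D.exists_root c hr hrN
    obtain ⟨ζ, hζ⟩ := D.exists_primitiveRoot_of_dvd hrN
    have h3 := congrArg τ (hrel r d' hr hd'pos hdN)
    rw [map_zero, orb_eval_biv_algHom τ, hτ] at h3
    rcases D.Phi_root_cases_ext ι c₀ hr hrN hζ hrn hnpos h3 with h4 | ⟨b', -, h4⟩
    · refine ⟨c₀ ^ (r ^ 2), a * r, b, n * r, ?_, ?_, h4⟩
      · rw [← hab]; ring
      · rw [mul_assoc, mul_comm r b, ← mul_assoc, hn]; ring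
    · refine ⟨ζ ^ b' * c₀, a, b * r, n / r, ?_, ?_, h4⟩
      · rw [← hab]; ring
      · rw [mul_comm b r, ← mul_assoc, Nat.div_mul_cancel hrn, hn]

end TowerData

end Fermat.Agent.Igusa
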