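/-
T1-A (helper5), T1A-CUSP, abstract part 1: in the abstract Puiseux tower `X_d ∈ k(X_{r^i} : r^i ∣ N)`
for every `d ∣ N`.

Galois argument: if `s ∉ K` is a root of a separable split polynomial over `K` there is an embedding
`σ ⊇ id_K` with `σ s ≠ s`; for `d = d' r = d'' s` (`r ≠ s` primes) `σ(X_d)` is a common root of
`Φ_r(X, X_{d'})` and `Φ_s(X, X_{d''})`, and the only common root is `X_d`.
-/
import Mathlib
import Fermat.Agent.Lib.T1.GoodRed.Orb.UnitAbs
import Fermat.Agent.Lib.T1.GoodRed.Orb.PhiSep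

set_option autoImplicit false

open Polynomial IntermediateField

noncomputable section

namespace Fermat.Agent.Igusa

variable {k Ω : Type*} [Field k] [Field Ω] [Algebra k Ω]

/-- **Galois argument**: a root `s ∉ K` of a separable split polynomial `P(X, x)`, `x ∈ K`, is moved
by some embedding extending the inclusion of `K` -/
theorem orb_exists_lift_ne (K : IntermediateField k Ω) {x s : Ω} (hx : x ∈ K)
    (P : Polynomial (Polynomial k)) (hroot : (P.map (twEv x)).eval s = 0)
    (hsep : (P.map (twEv x)).Separable) (hsplit : (P.map (twEv x)).Splits) (hs : s ∉ K) :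
    ∃ σ : Lifts k Ω Ω, twId K ≤ σ ∧ s ∈ σ.carrier ∧ twVal σ s ≠ s := by
  classical
  have hP0 : P.map (twEv x) ≠ 0 := hsep.ne_zero
  have hxc : x ∈ (twId K).carrier := hx
  have hint : IsIntegral (twId K).carrier s := isIntegral_of_biv (twId K) hxc P hP0 hroot
  have hdvd := minpoly_map_dvd_of_biv (twId K) hxc P hroot
  rw [twVal_twId K hx] at hdvd
  set mΩ := (minpoly (twId K).carrier s).map (twId K).emb.toRingHom with hmΩ
  have hmsep : mΩ.Separable := hsep.of_dvd hdvd
  have hmsplit : mΩ.Splits := hsplit.of_dvd hP0 hdvd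
  have hdeg : mΩ.natDegree = (minpoly (twId K).carrier s).natDegree := natDegree_map _
  have hdeg2 : 2 ≤ (minpoly (twId K).carrier s).natDegree := by
    have h1 : (minpoly (twId K).carrier s).natDegree ≠ 1 := by
      intro h1
      rw [minpoly.natDegree_eq_one_iff] at h1
      obtain ⟨z, hz⟩ := h1
      apply hs
      rw [← hz]
      exact z.2
    have h0 : 0 < (minpoly (twId K).carrier s).natDegree := minpoly.natDegree_pos hint
    omega
  have hex : ∃ y, mΩ.eval y = 0 ∧ y ≠ s := by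
    by_contra hne
    push Not at hne
    have hsub : mΩ.roots.toFinset ⊆ {s} := by
      intro y hy
      rw [Multiset.mem_toFinset, mem_roots hmsep.ne_zero] at hy
      rw [Finset.mem_singleton]
      exact hne y hy
    have h1 := Finset.card_le_card hsub
    rw [Multiset.toFinset_card_of_nodup (nodup_roots hmsep), ← hmsplit.natDegree_eq_card_roots,
      hdeg, Finset.card_singleton] at h1
    omega
  obtain ⟨y, hy, hys⟩ := hex
  obtain ⟨σ, hσ, hmem, hval⟩ := exists_lift_of_root (twId K) hint hy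
  exact ⟨σ, hσ, hmem, by rw [hval]; exact hys⟩

namespace TowerData

variable (D : TowerData k Ω)

/-- the only common root of `Φ_r(X, X_{d'})` and `Φ_s(X, X_{d''})`, `d' r = d'' s`, `r ≠ s`,
is `X_{d' r}` -/
theorem orb_common_root {r s d' d'' : ℕ} (hr : r.Prime) (hs : s.Prime) (hrs : r ≠ s)
    (hrN : r ∣ D.N) (hsN : s ∣ D.N) (hd' : 0 < d') (hd'' : 0 < d'') (hdd : d' * r = d'' * s)
    {y : Ω} (h1 : ((D.Phi r).map (twEv (D.xj d'))).eval y = 0)
    (h2 : ((D.Phi s).map (twEv (D.xj d''))).eval y = 0) : y = D.xj (d' * r) := by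
  obtain ⟨ζ, hζ⟩ := D.exists_primitiveRoot_of_dvd hrN
  obtain ⟨ξ, hξ⟩ := D.exists_primitiveRoot_of_dvd hsN
  have hpos' : 0 < D.N * d' := Nat.mul_pos D.N_pos hd'
  have hpos'' : 0 < D.N * d'' := Nat.mul_pos D.N_pos hd''
  have hdvd' : r ∣ D.N * d' := Dvd.dvd.mul_right hrN d'
  have hdvd'' : s ∣ D.N * d'' := Dvd.dvd.mul_right hsN d''
  have e1 : D.xj d' = D.J ((1 : kˣ) ^ r) (D.N * d') := by rw [one_pow]; rfl
  have e2 : D.xj d'' = D.J ((1 : kˣ) ^ s) (D.N * d'') := by rw [one_pow]; rfl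
  rw [e1] at h1
  rw [e2] at h2
  rcases D.Phi_root_cases 1 hr hrN hζ hdvd' hpos' h1 with h3 | ⟨b, -, h3⟩
  · rw [h3, one_pow, xj, mul_assoc]
  · rcases D.Phi_root_cases 1 hs hsN hξ hdvd'' hpos'' h2 with h4 | ⟨b', -, h4⟩
    · rw [h4, one_pow, xj, hdd, mul_assoc]
    · exfalso
      rw [h3] at h4
      have hp1 : 0 < D.N * d' / r := Nat.div_pos (Nat.le_of_dvd hpos' hdvd') hr.pos
      have hp2 : 0 < D.N * d'' / s := Nat.div_pos (Nat.le_of_dvd hpos'' hdvd'') hs.pos
      have h5 := (D.J_inj hp1 hp2 h4).1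
      -- `N d' / r = N d'' / s`, `d' r = d'' s` ⇒ `r = s`
      obtain ⟨a, ha⟩ := hdvd'
      obtain ⟨a', ha'⟩ := hdvd''
      rw [ha, ha', Nat.mul_div_cancel_left _ hr.pos, Nat.mul_div_cancel_left _ hs.pos] at h5
      subst h5
      -- `N d' = r a`, `N d'' = s a`
      have h6 : D.N * (d' * r) = D.N * (d'' * s) := by rw [hdd]
      have h7 : r * a * r = s * a * s := by
        rw [← ha, ← ha']
        calc D.N * d' * r = D.N * (d' * r) := by ring
          _ = D.N * (d'' * s) := h6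
          _ = D.N * d'' * s := by ring
      have hapos : 0 < a := Nat.pos_of_ne_zero (by
        rintro rfl
        rw [mul_zero] at ha
        omega)
      have h8 : r * r = s * s := by
        apply Nat.eq_of_mul_eq_mul_left hapos
        calc a * (r * r) = r * a * r := by ring
          _ = s * a * s := h7
          _ = a * (s * s) := by ring
      have h9 : r = s := by
        rcases Nat.lt_trichotomy r s with h | h | h
        · exfalso; nlinarith
        · exact h
        · exfalso; nlinarith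
      exact hrs h9

/-- **`X_d ∈ k(X_{r^i} : r^i ∣ N)` for every `d ∣ N`** -/
theorem xj_mem_orbK : ∀ d : ℕ, d ∣ D.N → D.xj d ∈ D.orbK D.N := by
  intro d
  induction d using Nat.strong_induction_on with
  | _ d ih =>
    intro hdN
    have hdpos : 0 < d := Nat.pos_of_dvd_of_pos hdN D.N_pos
    by_cases h1 : d = 1
    · rw [h1]; exact D.xj_one_mem_orbK D.N
    -- a prime factor `r` and the `r`-free part
    obtain ⟨r, hr, hrd⟩ : ∃ r : ℕ, r.Prime ∧ r ∣ d :=
      ⟨d.minFac, Nat.minFac_prime h1, Nat.minFac_dvd d⟩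
    set i := d.factorization r with hi
    set m := d / r ^ i with hm
    have hdm : d = m * r ^ i := (Nat.div_mul_cancel (Nat.ordProj_dvd d r)).symm
    by_cases hm1 : m = 1
    · rw [hdm, hm1, one_mul]
      apply D.xj_pow_mem_orbK hr
      rw [hdm, hm1, one_mul] at hdN
      exact hdN
    -- a second prime `s ≠ r`
    obtain ⟨s, hs, hsm⟩ : ∃ s : ℕ, s.Prime ∧ s ∣ m :=
      ⟨m.minFac, Nat.minFac_prime hm1, Nat.minFac_dvd m⟩
    have hrm : ¬ r ∣ m := Nat.not_dvd_ordCompl hr hdpos.ne'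
    have hrs : r ≠ s := by
      rintro rfl
      exact hrm hsm
    have hsd : s ∣ d := hsm.trans ⟨r ^ i, hdm⟩
    obtain ⟨d', hd'⟩ : ∃ d', d = d' * r := ⟨d / r, (Nat.div_mul_cancel hrd).symm⟩
    obtain ⟨d'', hd''⟩ : ∃ d'', d = d'' * s := ⟨d / s, (Nat.div_mul_cancel hsd).symm⟩
    have hd'pos : 0 < d' := Nat.pos_of_ne_zero (by rintro rfl; omega)
    have hd''pos : 0 < d'' := Nat.pos_of_ne_zero (by rintro rfl; omega)
    have hd'lt : d' < d := by
      rw [hd']; have := hr.two_le; nlinarith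
    have hd''lt : d'' < d := by
      rw [hd'']; have := hs.two_le; nlinarith
    have hrN : r ∣ D.N := hrd.trans hdN
    have hsN : s ∣ D.N := hsd.trans hdN
    have hmem' : D.xj d' ∈ D.orbK D.N := ih d' hd'lt ((Dvd.intro _ hd'.symm).trans hdN)
    have hmem'' : D.xj d'' ∈ D.orbK D.N := ih d'' hd''lt ((Dvd.intro _ hd''.symm).trans hdN)
    by_contra hnot
    have hup' := D.Phi_rel_up hr hrN hd'pos
    have hup'' := D.Phi_rel_up hs hsN hd''pos
    rw [← hd'] at hup'
    rw [← hd''] at hup''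
    obtain ⟨σ, hσ, hmem, hne⟩ := orb_exists_lift_ne (D.orbK D.N) hmem' (D.Phi r) hup'
      (D.Phi_map_separable hr hrN hd'pos)
      (D.Phi_map_splits 1 hr hrN (Dvd.dvd.mul_right hrN d') (Nat.mul_pos D.N_pos hd'pos)) hnot
    have h3 := twVal_biv σ (hσ.1 hmem') hmem (D.Phi r) hup'
    have h4 := twVal_biv σ (hσ.1 hmem'') hmem (D.Phi s) hup''
    rw [twVal_of_twId_le hσ hmem'] at h3
    rw [twVal_of_twId_le hσ hmem''] at h4
    have h5 := D.orb_common_root hr hs hrs hrN hsN hd'pos hd''pos (hd'.symm.trans hd'') h3 h4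
    rw [← hd'] at h5
    exact hne h5

/-- `k(X_d : d ∣ N) = k(X_{r^i} : r^i ∣ N)` -/
theorem adjoin_xj_eq_orbK :
    adjoin k {x | ∃ d : ℕ, d ∣ D.N ∧ x = D.xj d} = D.orbK D.N := by
  apply le_antisymm
  · rw [adjoin_le_iff]
    rintro x ⟨d, hd, rfl⟩
    exact D.xj_mem_orbK d hd
  · rw [orbK, adjoin_le_iff]
    rintro x (hx | ⟨r, i, hr, hi, hri, rfl⟩)
    · rw [Set.mem_singleton_iff] at hx
      rw [hx]
      exact subset_adjoin k _ ⟨1, one_dvd _, rfl⟩
    · exact subset_adjoin k _ ⟨r ^ i, hri, rfl⟩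

end TowerData

end Fermat.Agent.Igusa
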