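/-
T1-A, T1A-BASE (helper5), abstract part: at level `N = p²` the `p² + p` embeddings of
`k(X_1, X_p, X_{p²})` over `X_1 ↦ X_1` realise all the `p² + p` possible pairs of values
`(X_p, X_{p²})`:  `(J(1, Np), J(1, Np²))`, `(J(1, Np), J(ζ^b, N))` (`0 < b < p`) and
`(J(c^p, N/p), J(c, N/p²))` (`c^{p²} = 1`).
-/
import Mathlib
import Fermat.Agent.Lib.T1.GoodRed.Orb.ShapeExt

set_option autoImplicit false
set_option linter.unusedSectionVars false
set_option linter.style.haveILetI false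

open Polynomial IntermediateField

namespace Fermat.Agent.Igusa

namespace TowerData

variable {k Ω : Type*} [Field k] [Field Ω] [Algebra k Ω] (D : TowerData k Ω)
  {E : Type*} [Field E] [Algebra k E] (X : ℕ → E)

/-- **the shape of an embedding at level `p²`** -/
theorem base_shape
    (hrel : ∀ r d : ℕ, r.Prime → 0 < d → d * r ∣ D.N →
      ((D.Phi r).map (twEv (X d))).eval (X (d * r)) = 0)
    {p : ℕ} (hp : p.Prime) (hN : D.N = p * p) {ζ : kˣ} (hζ : IsPrimitiveRoot ζ p)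
    (τ : E →ₐ[k] Ω) (h1 : τ (X 1) = D.xj 1) (hX : τ (X (p * p)) ≠ τ (X 1)) :
    (τ (X p) = D.J 1 (D.N * p) ∧ (τ (X (p * p)) = D.J 1 (D.N * p * p) ∨
        ∃ b, 0 < b ∧ b < p ∧ τ (X (p * p)) = D.J (ζ ^ b) D.N)) ∨
      (τ (X p) ≠ D.J 1 (D.N * p) ∧ ∃ c : kˣ, c ^ (p * p) = 1 ∧ τ (X p) = D.J (c ^ p) (D.N / p) ∧
        τ (X (p * p)) = D.J c (D.N / p / p)) := by
  have hpN : p ∣ D.N := ⟨p, hN⟩
  have hNp : D.N / p = p := by rw [hN, Nat.mul_div_cancel _ hp.pos]
  have hx1 : D.xj 1 = D.J 1 D.N := by rw [xj, mul_one]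
  -- first step
  have h3 := congrArg τ (hrel p 1 hp one_pos (by rw [one_mul]; exact hpN))
  rw [map_zero, orb_eval_biv_algHom τ, h1, one_mul] at h3
  have h3' : ((D.Phi p).map (twEv (D.J ((1 : kˣ) ^ p) D.N))).eval (τ (X p)) = 0 := by
    rw [one_pow, ← hx1]
    exact h3
  rcases D.Phi_root_cases 1 hp hpN hζ hpN D.N_pos h3' with h4 | ⟨b, hb, h4⟩
  · -- up
    rw [one_pow] at h4
    left
    refine ⟨h4, ?_⟩
    have h5 := congrArg τ (hrel p p hp hp.pos (by rw [hN]))
    rw [map_zero, orb_eval_biv_algHom τ, h4] at h5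
    have h5' : ((D.Phi p).map (twEv (D.J ((1 : kˣ) ^ p) (D.N * p)))).eval (τ (X (p * p))) = 0 := by
      rw [one_pow]
      exact h5
    rcases D.Phi_root_cases 1 hp hpN hζ (Dvd.intro_left _ rfl)
      (Nat.mul_pos D.N_pos hp.pos) h5' with h6 | ⟨b, hb, h6⟩
    · left
      rw [one_pow] at h6
      exact h6
    · right
      rw [mul_one, Nat.mul_div_cancel _ hp.pos] at h6
      refine ⟨b, Nat.pos_of_ne_zero ?_, hb, h6⟩
      rintro rfl
      rw [pow_zero, ← hx1, ← h1] at h6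
      exact hX h6
  · -- down
    right
    rw [mul_one] at h4
    have hne : τ (X p) ≠ D.J 1 (D.N * p) := by
      rw [h4]
      intro h
      have := (D.J_inj (by rw [hNp]; exact hp.pos) (Nat.mul_pos D.N_pos hp.pos) h).1
      rw [hNp, hN] at this
      have h2 := hp.two_le
      nlinarith
    refine ⟨hne, ?_⟩
    obtain ⟨c₀, hc₀⟩ := D.exists_root (ζ ^ b) hp hpN
    have h5 := congrArg τ (hrel p p hp hp.pos (by rw [hN]))
    rw [map_zero, orb_eval_biv_algHom τ, h4, ← hc₀] at h5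
    have hpp : p ∣ D.N / p := by rw [hNp]
    have hpos : 0 < D.N / p := by rw [hNp]; exact hp.pos
    rcases D.Phi_root_cases c₀ hp hpN hζ hpp hpos h5 with h6 | ⟨b', hb', h6⟩
    · exfalso
      apply hX
      rw [h6, h1, hx1, Nat.div_mul_cancel hpN, pow_two, pow_mul, hc₀, ← pow_mul, mul_comm b p,
        pow_mul, hζ.pow_eq_one, one_pow]
    · have hc : (ζ ^ b' * c₀) ^ p = ζ ^ b := by
        rw [mul_pow, ← pow_mul, mul_comm b' p, pow_mul, hζ.pow_eq_one, one_pow, one_mul, hc₀]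
      refine ⟨ζ ^ b' * c₀, ?_, ?_, h6⟩
      · rw [pow_mul, hc, ← pow_mul, mul_comm b p, pow_mul, hζ.pow_eq_one, one_pow]
      · rw [hc, h4]

/-- **all the shapes occur** -/
theorem base_count
    (hrel : ∀ r d : ℕ, r.Prime → 0 < d → d * r ∣ D.N →
      ((D.Phi r).map (twEv (X d))).eval (X (d * r)) = 0)
    {p : ℕ} (hp : p.Prime) (hN : D.N = p * p) {ζ : kˣ} (hζ : IsPrimitiveRoot ζ p)
    (hX : X (p * p) ≠ X 1)
    {ι : Type*} [Fintype ι] (σ : ι → (E →ₐ[k] Ω)) (h1 : ∀ i, σ i (X 1) = D.xj 1)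
    (hinj : ∀ i j, σ i (X p) = σ j (X p) → σ i (X (p * p)) = σ j (X (p * p)) → i = j)
    (hcard : p * p + p ≤ Fintype.card ι) :
    (∀ b, 0 < b → b < p →
      ∃ i, σ i (X p) = D.J 1 (D.N * p) ∧ σ i (X (p * p)) = D.J (ζ ^ b) D.N) ∧
    (∃ i, ∃ c : kˣ, σ i (X p) = D.J (c ^ p) (D.N / p) ∧
      σ i (X (p * p)) = D.J c (D.N / p / p)) := by
  classical
  have hXi : ∀ i, σ i (X (p * p)) ≠ σ i (X 1) := fun i h => hX ((σ i).toRingHom.injective h)
  have hshape := fun i => D.base_shape X hrel hp hN hζ (σ i) (h1 i) (hXi i)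
  have hpos1 : 0 < D.N / p / p := by
    rw [hN, Nat.mul_div_cancel _ hp.pos, Nat.div_self hp.pos]
    exact one_pos
  set U := Finset.univ.filter (fun i => σ i (X p) = D.J 1 (D.N * p)) with hU
  set Dn := Finset.univ.filter (fun i => ¬ σ i (X p) = D.J 1 (D.N * p)) with hDn
  have hsum : U.card + Dn.card = Fintype.card ι := by
    rw [hU, hDn, Finset.card_filter_add_card_filter_not, Finset.card_univ]
  -- the values of the `up` embeddings
  let Tup : Finset Ω :=
    insert (D.J 1 (D.N * p * p)) ((Finset.Ico 1 p).image (fun b => D.J (ζ ^ b) D.N))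
  have hTup : Tup.card ≤ p := by
    calc Tup.card ≤ ((Finset.Ico 1 p).image (fun b => D.J (ζ ^ b) D.N)).card + 1 :=
          Finset.card_insert_le _ _
      _ ≤ (Finset.Ico 1 p).card + 1 := Nat.add_le_add_right Finset.card_image_le 1
      _ = p := by
          rw [Nat.card_Ico]
          have := hp.two_le
          omega
  have hUmaps : ∀ i ∈ U, σ i (X (p * p)) ∈ Tup := by
    intro i hi
    rw [hU, Finset.mem_filter] at hi
    rcases hshape i with ⟨_, h | ⟨b, hb0, hb, h⟩⟩ | ⟨hne, _⟩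
    · rw [h]; exact Finset.mem_insert_self _ _
    · rw [h]
      exact Finset.mem_insert_of_mem
        (Finset.mem_image.mpr ⟨b, Finset.mem_Ico.mpr ⟨hb0, hb⟩, rfl⟩)
    · exact absurd hi.2 hne
  have hUinj : ∀ i ∈ U, ∀ j ∈ U, σ i (X (p * p)) = σ j (X (p * p)) → i = j := by
    intro i hi j hj h
    rw [hU, Finset.mem_filter] at hi hj
    exact hinj i j (hi.2.trans hj.2.symm) h
  have hUle : U.card ≤ Tup.card :=
    Finset.card_le_card_of_injOn (fun i => σ i (X (p * p))) hUmaps hUinj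
  -- the values of the `down` embeddings
  haveI : NeZero (p * p) := ⟨(Nat.mul_pos hp.pos hp.pos).ne'⟩
  letI : Fintype (rootsOfUnity (p * p) k) := Fintype.ofFinite _
  let Tdn : Finset Ω := (Finset.univ : Finset (rootsOfUnity (p * p) k)).image
    (fun c : rootsOfUnity (p * p) k => D.J (c : kˣ) (D.N / p / p))
  have hTdn : Tdn.card ≤ p * p := by
    calc Tdn.card ≤ (Finset.univ : Finset (rootsOfUnity (p * p) k)).card := Finset.card_image_le
      _ = Nat.card (rootsOfUnity (p * p) k) := by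
          rw [Finset.card_univ, Nat.card_eq_fintype_card]
      _ ≤ p * p := card_rootsOfUnity k (p * p)
  have hDmaps : ∀ i ∈ Dn, σ i (X (p * p)) ∈ Tdn := by
    intro i hi
    rw [hDn, Finset.mem_filter] at hi
    rcases hshape i with ⟨hup, _⟩ | ⟨_, c, hc, _, h⟩
    · exact absurd hup hi.2
    · rw [h]
      exact Finset.mem_image.mpr
        ⟨(⟨c, (mem_rootsOfUnity _ _).mpr hc⟩ : rootsOfUnity (p * p) k), Finset.mem_univ _, rfl⟩
  have hDinj : ∀ i ∈ Dn, ∀ j ∈ Dn, σ i (X (p * p)) = σ j (X (p * p)) → i = j := by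
    intro i hi j hj h
    rw [hDn, Finset.mem_filter] at hi hj
    rcases hshape i with ⟨hup, _⟩ | ⟨_, c, hc, hcp, hcpp⟩
    · exact absurd hup hi.2
    rcases hshape j with ⟨hup, _⟩ | ⟨_, c', hc', hcp', hcpp'⟩
    · exact absurd hup hj.2
    have hcc : c = c' := by
      rw [hcpp, hcpp'] at h
      exact (D.J_inj hpos1 hpos1 h).2
    apply hinj i j _ h
    rw [hcp, hcp', hcc]
  have hDle : Dn.card ≤ Tdn.card :=
    Finset.card_le_card_of_injOn (fun i => σ i (X (p * p))) hDmaps hDinj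
  constructor
  · intro b hb0 hb
    have hge : Tup.card ≤ U.card := by omega
    have hsurj := Finset.surj_on_of_inj_on_of_card_le (fun i _ => σ i (X (p * p)))
      hUmaps (fun i j hi hj h => hUinj i hi j hj h) hge
    have hmem : D.J (ζ ^ b) D.N ∈ Tup :=
      Finset.mem_insert_of_mem (Finset.mem_image.mpr ⟨b, Finset.mem_Ico.mpr ⟨hb0, hb⟩, rfl⟩)
    obtain ⟨i, hi, h⟩ := hsurj _ hmem
    rw [hU, Finset.mem_filter] at hi
    exact ⟨i, hi.2, h.symm⟩
  · have hpos : 0 < Dn.card := by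
      have := Nat.mul_pos hp.pos hp.pos
      omega
    obtain ⟨i, hi⟩ := Finset.card_pos.mp hpos
    rw [hDn, Finset.mem_filter] at hi
    rcases hshape i with ⟨hup, _⟩ | ⟨_, c, _, hcp, hcpp⟩
    · exact absurd hup hi.2
    · exact ⟨i, c, hcp, hcpp⟩

/-- **at most `p² + p` embeddings** -/
theorem base_card_le
    (hrel : ∀ r d : ℕ, r.Prime → 0 < d → d * r ∣ D.N →
      ((D.Phi r).map (twEv (X d))).eval (X (d * r)) = 0)
    {p : ℕ} (hp : p.Prime) (hN : D.N = p * p) {ζ : kˣ} (hζ : IsPrimitiveRoot ζ p)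
    (hX : X (p * p) ≠ X 1)
    {ι : Type*} [Fintype ι] (σ : ι → (E →ₐ[k] Ω)) (h1 : ∀ i, σ i (X 1) = D.xj 1)
    (hinj : ∀ i j, σ i (X p) = σ j (X p) → σ i (X (p * p)) = σ j (X (p * p)) → i = j) :
    Fintype.card ι ≤ p * p + p := by
  classical
  have hXi : ∀ i, σ i (X (p * p)) ≠ σ i (X 1) := fun i h => hX ((σ i).toRingHom.injective h)
  have hshape := fun i => D.base_shape X hrel hp hN hζ (σ i) (h1 i) (hXi i)
  have hpos1 : 0 < D.N / p / p := by
    rw [hN, Nat.mul_div_cancel _ hp.pos, Nat.div_self hp.pos]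
    exact one_pos
  set U := Finset.univ.filter (fun i => σ i (X p) = D.J 1 (D.N * p)) with hU
  set Dn := Finset.univ.filter (fun i => ¬ σ i (X p) = D.J 1 (D.N * p)) with hDn
  have hsum : U.card + Dn.card = Fintype.card ι := by
    rw [hU, hDn, Finset.card_filter_add_card_filter_not, Finset.card_univ]
  -- the values of the `up` embeddings
  let Tup : Finset Ω :=
    insert (D.J 1 (D.N * p * p)) ((Finset.Ico 1 p).image (fun b => D.J (ζ ^ b) D.N))
  have hTup : Tup.card ≤ p := by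
    calc Tup.card ≤ ((Finset.Ico 1 p).image (fun b => D.J (ζ ^ b) D.N)).card + 1 :=
          Finset.card_insert_le _ _
      _ ≤ (Finset.Ico 1 p).card + 1 := Nat.add_le_add_right Finset.card_image_le 1
      _ = p := by
          rw [Nat.card_Ico]
          have := hp.two_le
          omega
  have hUmaps : ∀ i ∈ U, σ i (X (p * p)) ∈ Tup := by
    intro i hi
    rw [hU, Finset.mem_filter] at hi
    rcases hshape i with ⟨_, h | ⟨b, hb0, hb, h⟩⟩ | ⟨hne, _⟩
    · rw [h]; exact Finset.mem_insert_self _ _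
    · rw [h]
      exact Finset.mem_insert_of_mem
        (Finset.mem_image.mpr ⟨b, Finset.mem_Ico.mpr ⟨hb0, hb⟩, rfl⟩)
    · exact absurd hi.2 hne
  have hUinj : ∀ i ∈ U, ∀ j ∈ U, σ i (X (p * p)) = σ j (X (p * p)) → i = j := by
    intro i hi j hj h
    rw [hU, Finset.mem_filter] at hi hj
    exact hinj i j (hi.2.trans hj.2.symm) h
  have hUle : U.card ≤ Tup.card :=
    Finset.card_le_card_of_injOn (fun i => σ i (X (p * p))) hUmaps hUinj
  -- the values of the `down` embeddings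
  haveI : NeZero (p * p) := ⟨(Nat.mul_pos hp.pos hp.pos).ne'⟩
  letI : Fintype (rootsOfUnity (p * p) k) := Fintype.ofFinite _
  let Tdn : Finset Ω := (Finset.univ : Finset (rootsOfUnity (p * p) k)).image
    (fun c : rootsOfUnity (p * p) k => D.J (c : kˣ) (D.N / p / p))
  have hTdn : Tdn.card ≤ p * p := by
    calc Tdn.card ≤ (Finset.univ : Finset (rootsOfUnity (p * p) k)).card := Finset.card_image_le
      _ = Nat.card (rootsOfUnity (p * p) k) := by
          rw [Finset.card_univ, Nat.card_eq_fintype_card]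
      _ ≤ p * p := card_rootsOfUnity k (p * p)
  have hDmaps : ∀ i ∈ Dn, σ i (X (p * p)) ∈ Tdn := by
    intro i hi
    rw [hDn, Finset.mem_filter] at hi
    rcases hshape i with ⟨hup, _⟩ | ⟨_, c, hc, _, h⟩
    · exact absurd hup hi.2
    · rw [h]
      exact Finset.mem_image.mpr
        ⟨(⟨c, (mem_rootsOfUnity _ _).mpr hc⟩ : rootsOfUnity (p * p) k), Finset.mem_univ _, rfl⟩
  have hDinj : ∀ i ∈ Dn, ∀ j ∈ Dn, σ i (X (p * p)) = σ j (X (p * p)) → i = j := by
    intro i hi j hj h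
    rw [hDn, Finset.mem_filter] at hi hj
    rcases hshape i with ⟨hup, _⟩ | ⟨_, c, hc, hcp, hcpp⟩
    · exact absurd hup hi.2
    rcases hshape j with ⟨hup, _⟩ | ⟨_, c', hc', hcp', hcpp'⟩
    · exact absurd hup hj.2
    have hcc : c = c' := by
      rw [hcpp, hcpp'] at h
      exact (D.J_inj hpos1 hpos1 h).2
    apply hinj i j _ h
    rw [hcp, hcp', hcc]
  have hDle : Dn.card ≤ Tdn.card :=
    Finset.card_le_card_of_injOn (fun i => σ i (X (p * p))) hDmaps hDinj
  omega

end TowerData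

end Fermat.Agent.Igusa
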