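/-
T1-A (helper5), abstract part of `[F̄_N : k(j̄)] ≤ ψ(N)`: a family of pairwise distinct
`κ`-embeddings of `K = k(X_{r^i} : r^i ∣ N)` into `Ω` has at most `ψ(N)` members, because an
embedding is determined by its path data `(i₀, c)` at the primes `r ∣ N`, and there are at most
`r^e + Σ_{0 < i₀ ≤ e} φ(r^(e - i₀)) = ψ(r^e)` possible data at `r`.
-/
import Mathlib
import Fermat.Agent.Lib.T1.GoodRed.CuspOrbits
import Fermat.Agent.Lib.Igusa.TowerLeafGlue

set_option autoImplicit false
set_option linter.unusedSectionVars false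

open Polynomial IntermediateField ModularCurve

noncomputable section

namespace Fermat.Agent.Igusa

/-! ### Counting -/

section Count

theorem orb_dedekindPsi_eq_prod {N : ℕ} (hN : N ≠ 0) :
    dedekindPsi N = ∏ r ∈ N.primeFactors, dedekindPsi (r ^ N.factorization r) := by
  rw [Nat.multiplicative_factorization dedekindPsi
    (fun x y h => Fermat.Agent.S24Lib.dedekindPsi_mul h) dedekindPsi_one hN, Finsupp.prod,
    Nat.support_factorization]

theorem orb_sum_totient_pow {r : ℕ} (hr : r.Prime) (n : ℕ) :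
    ∑ m ∈ Finset.range (n + 1), Nat.totient (r ^ m) = r ^ n := by
  have h := Nat.sum_totient (r ^ n)
  rw [Nat.sum_divisors_prime_pow hr] at h
  exact h

variable (k : Type*) [Field k]

/-- the finite set of possible path data `(i₀, c)` at the prime `r`, `r^e ‖ N` -/
noncomputable def orbEndSet (r e : ℕ) : Finset (ℕ × k) :=
  open Classical in
  (Finset.range (e + 1)).biUnion
    (fun i => (if i = 0 then Polynomial.nthRootsFinset (r ^ e) (1 : k)
      else primitiveRoots (r ^ (e - i)) k).image (fun c => (i, c)))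

theorem mem_orbEndSet_zero {r e : ℕ} (hr : r.Prime) {c : k} (hc : c ^ r ^ e = 1) :
    (0, c) ∈ orbEndSet k r e := by
  classical
  unfold orbEndSet
  rw [Finset.mem_biUnion]
  refine ⟨0, Finset.mem_range.mpr (by omega), ?_⟩
  rw [if_pos rfl, Finset.mem_image]
  exact ⟨c, (Polynomial.mem_nthRootsFinset (pow_pos hr.pos _) 1).mpr hc, rfl⟩

theorem mem_orbEndSet_pos {r e i : ℕ} (hr : r.Prime) (hi0 : 0 < i) (hi : i ≤ e) {c : k}
    (hc : IsPrimitiveRoot c (r ^ (e - i))) : (i, c) ∈ orbEndSet k r e := by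
  classical
  unfold orbEndSet
  rw [Finset.mem_biUnion]
  refine ⟨i, Finset.mem_range.mpr (by omega), ?_⟩
  rw [if_neg hi0.ne', Finset.mem_image]
  exact ⟨c, (mem_primitiveRoots (pow_pos hr.pos _)).mpr hc, rfl⟩

theorem card_orbEndSet_le {r e : ℕ} (hr : r.Prime) (he : 0 < e) :
    (orbEndSet k r e).card ≤ dedekindPsi (r ^ e) := by
  classical
  rw [Fermat.Agent.S24Lib.dedekindPsi_prime_pow hr he.ne']
  unfold orbEndSet
  refine Finset.card_biUnion_le.trans ?_
  rw [Finset.sum_range_succ']
  rw [if_pos rfl, add_comm]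
  refine Nat.add_le_add ?_ ?_
  · refine Finset.card_image_le.trans ?_
    have h := Polynomial.card_nthRoots (r ^ e) (1 : k)
    exact (Multiset.toFinset_card_le _).trans h
  · obtain ⟨n, rfl⟩ : ∃ n, e = n + 1 := ⟨e - 1, by omega⟩
    rw [Nat.add_sub_cancel, ← orb_sum_totient_pow hr n, ← Finset.sum_range_reflect]
    refine Finset.sum_le_sum (fun i hi => ?_)
    rw [Finset.mem_range] at hi
    rw [if_neg (by omega)]
    refine Finset.card_image_le.trans ?_
    have hexp : n + 1 - (n + 1 - 1 - i + 1) = i := by omega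
    rw [hexp]
    by_cases h : (primitiveRoots (r ^ i) k).Nonempty
    · obtain ⟨ζ, hζ⟩ := h
      rw [((mem_primitiveRoots (pow_pos hr.pos _)).mp hζ).card_primitiveRoots]
    · rw [Finset.not_nonempty_iff_eq_empty] at h
      rw [h, Finset.card_empty]
      exact Nat.zero_le _

end Count

/-! ### The embeddings -/

namespace TowerData

variable {k Ω : Type*} [Field k] [Field Ω] [Algebra k Ω] (D : TowerData k Ω)

/-- the path data of `σ` at the primes dividing `N` -/
def orbEndFun (K : IntermediateField k Ω) (σ : ↥K →ₐ[k] Ω) : D.N.primeFactors → ℕ × k :=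
  fun r => ((D.orbData K σ r).1, (((D.orbData K σ r).2 : kˣ) : k))

theorem orbEnd_mem {K : IntermediateField k Ω} (hK : K = D.orbK D.N) {σ : ↥K →ₐ[k] Ω}
    (hσ : D.OrbKappa K σ) {r : ℕ} (hr : r.Prime) :
    ((D.orbData K σ r).1, (((D.orbData K σ r).2 : kˣ) : k)) ∈
      orbEndSet k r (D.N.factorization r) := by
  obtain ⟨hi, -, h3, h4⟩ := D.orbData_spec hK hσ hr
  rcases Nat.eq_zero_or_pos (D.orbData K σ r).1 with h0 | h0
  · rw [h0]
    apply mem_orbEndSet_zero k hr
    rw [h0, Nat.sub_zero] at h3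
    rw [← Units.val_pow_eq_pow_val, h3, Units.val_one]
  · apply mem_orbEndSet_pos k hr h0 hi
    rw [IsPrimitiveRoot.coe_units_iff]
    rcases Nat.lt_or_ge (D.orbData K σ r).1 (D.N.factorization r) with hlt | hge
    · have : Fact r.Prime := ⟨hr⟩
      obtain ⟨m, hm⟩ : ∃ m, D.N.factorization r - (D.orbData K σ r).1 = m + 1 :=
        ⟨D.N.factorization r - (D.orbData K σ r).1 - 1, by omega⟩
      have hm' : D.N.factorization r - (D.orbData K σ r).1 - 1 = m := by omega
      have h4' := h4 h0 hlt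
      rw [hm'] at h4'
      rw [hm] at h3 ⊢
      have hord := orderOf_eq_prime_pow h4' h3
      rw [← hord]
      exact IsPrimitiveRoot.orderOf _
    · have hie : D.N.factorization r - (D.orbData K σ r).1 = 0 := by omega
      rw [hie, pow_zero, pow_one] at h3
      rw [hie, pow_zero, h3]
      exact IsPrimitiveRoot.one

/-- **an embedding is determined by its path data** -/
theorem orb_eq_of_endFun_eq (K : IntermediateField k Ω) (hK : K = D.orbK D.N)
    {σ σ' : ↥K →ₐ[k] Ω} (hσ : D.OrbKappa K σ) (hσ' : D.OrbKappa K σ')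
    (h : D.orbEndFun K σ = D.orbEndFun K σ') : σ = σ' := by
  have h1K : D.xj 1 ∈ K := hK ▸ D.xj_one_mem_orbK D.N
  have hmemK : ∀ {r j : ℕ}, r.Prime → r ^ j ∣ D.N → D.xj (r ^ j) ∈ K := by
    intro r j hr hj
    rw [hK]
    exact D.xj_pow_mem_orbK hr hj
  have hchain : ∀ r ∈ D.N.primeFactors, ∀ j, ∀ _ : j ≤ D.N.factorization r,
      ∀ hmem : D.xj (r ^ j) ∈ K, σ ⟨_, hmem⟩ = σ' ⟨_, hmem⟩ := by
    intro r hr j hj hmem
    have hrp : r.Prime := Nat.prime_of_mem_primeFactors hr
    have hp := D.orbData_spec hK hσ hrp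
    have hp' := D.orbData_spec hK hσ' hrp
    have hdata := congrFun h ⟨r, hr⟩
    simp only [orbEndFun, Prod.mk.injEq] at hdata
    obtain ⟨hd1, hd2⟩ := hdata
    have hd2' : (D.orbData K σ r).2 = (D.orbData K σ' r).2 := Units.ext hd2
    have hend : twVal (orbLift K σ) (D.xj (r ^ D.N.factorization r)) =
        twVal (orbLift K σ') (D.xj (r ^ D.N.factorization r)) := by
      rw [D.orbPath_endpoint hp, D.orbPath_endpoint hp', hd1, hd2']
    have hval := D.orbPath_values_eq hrp (D.orb_decomp r) hp hp' hend j hj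
    rw [twVal_orbLift K _ hmem, twVal_orbLift K _ hmem] at hval
    exact hval
  apply algHom_ext_of_eq_adjoin k hK
  rintro x (hx | ⟨r, i, hr, hi, hri, rfl⟩)
  · rw [Set.mem_singleton_iff] at hx
    subst hx
    rw [hσ ⟨_, h1K⟩ rfl, hσ' ⟨_, h1K⟩ rfl]
  · have hrmem : r ∈ D.N.primeFactors :=
      Nat.mem_primeFactors.mpr ⟨hr, (dvd_pow_self r hi.ne').trans hri, D.N_pos.ne'⟩
    exact hchain r hrmem i ((hr.pow_dvd_iff_le_factorization D.N_pos.ne').mp hri) _

/-- **there are at most `ψ(N)` embeddings of `K = k(X_{r^i} : r^i ∣ N)` over `κ`** -/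
theorem orb_card_le (K : IntermediateField k Ω) (hK : K = D.orbK D.N) {ι : Type*} [Fintype ι]
    (σ : ι → (↥K →ₐ[k] Ω)) (hσ : ∀ i, D.OrbKappa K (σ i)) (hinj : Function.Injective σ) :
    Fintype.card ι ≤ dedekindPsi D.N := by
  classical
  set T : Finset (D.N.primeFactors → ℕ × k) :=
    Fintype.piFinset (fun r : D.N.primeFactors => orbEndSet k r (D.N.factorization r)) with hT
  have hmaps : ∀ i, D.orbEndFun K (σ i) ∈ T := by
    intro i
    rw [hT, Fintype.mem_piFinset]
    intro r
    exact D.orbEnd_mem hK (hσ i) (Nat.prime_of_mem_primeFactors r.2)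
  have hfinj : Function.Injective (fun i => D.orbEndFun K (σ i)) := fun i j h =>
    hinj (D.orb_eq_of_endFun_eq K hK (hσ i) (hσ j) h)
  calc Fintype.card ι = (Finset.univ : Finset ι).card := Finset.card_univ.symm
    _ ≤ T.card := Finset.card_le_card_of_injOn (fun i => D.orbEndFun K (σ i))
        (fun i _ => hmaps i) (fun i _ j _ h => hfinj h)
    _ = ∏ r : D.N.primeFactors, (orbEndSet k (r : ℕ) (D.N.factorization r)).card := by
        rw [hT, Fintype.card_piFinset]
    _ ≤ ∏ r : D.N.primeFactors, dedekindPsi ((r : ℕ) ^ D.N.factorization r) := by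
        refine Finset.prod_le_prod' (fun r _ => ?_)
        have hrp : (r : ℕ).Prime := Nat.prime_of_mem_primeFactors r.2
        exact card_orbEndSet_le k hrp
          (hrp.factorization_pos_of_dvd D.N_pos.ne' (Nat.dvd_of_mem_primeFactors r.2))
    _ = dedekindPsi D.N := by
        rw [orb_dedekindPsi_eq_prod D.N_pos.ne',
          ← Finset.prod_coe_sort D.N.primeFactors (fun r => dedekindPsi (r ^ D.N.factorization r))]

end TowerData

end Fermat.Agent.Igusa
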